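import Mathlib.RingTheory.Depth.Rees
import Mathlib.RingTheory.Regular.Free
import Mathlib.Algebra.Category.ModuleCat.Ext.Finite

set_option autoImplicit false

open CategoryTheory Abelian RingTheory.Sequence IsLocalRing Pointwise

namespace Fermat.Agent.S57

variable {A : Type} [CommRing A] [IsLocalRing A] [IsNoetherianRing A]

/-- Nakayama on `Ext`: if `Ext^{i+1}(K/xK, N) = 0` and `x ∈ 𝔪` is `K`-regular
then `Ext^i(K, N) = 0`. -/
lemma subsingleton_ext_of_quotSMulTop (K N : ModuleCat.{0} A) [Module.Finite A K]
    [Module.Finite A N] {x : A} (hx : x ∈ maximalIdeal A) (reg : IsSMulRegular K x) (i : ℕ)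
    (h : Subsingleton (Ext (ModuleCat.of A (QuotSMulTop x K)) N (i + 1))) :
    Subsingleton (Ext K N i) := by
  have hS := reg.smulShortComplex_shortExact
  have surj : ∀ y : Ext K N i, ∃ z : Ext K N i, x • z = y := by
    intro y
    have key : ∃ z : Ext K N i, (Ext.mk₀ (x • 𝟙 K)).comp z (zero_add i) = y :=
      Ext.contravariant_sequence_exact₁ hS N y (add_comm 1 i) (h.elim _ _)
    obtain ⟨z, hz⟩ := key
    refine ⟨z, ?_⟩
    rw [← hz, Ext.mk₀_smul, Ext.smul_comp, Ext.mk₀_id_comp]
  have htop : (⊤ : Submodule A (Ext K N i)) = ⊥ := by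
    apply Submodule.eq_bot_of_le_smul_of_le_jacobson_bot (Ideal.span {x}) ⊤ Module.Finite.fg_top
    · intro y _
      obtain ⟨z, rfl⟩ := surj y
      exact Submodule.smul_mem_smul (Ideal.mem_span_singleton_self x) trivial
    · rw [Ideal.span_le, Set.singleton_subset_iff, IsLocalRing.jacobson_eq_maximalIdeal _ bot_ne_top]
      exact hx
  exact (Submodule.subsingleton_iff A).mp (subsingleton_of_bot_eq_top htop.symm)

/-- Ischebeck-type vanishing along a regular sequence. -/
lemma subsingleton_ext_of_isWeaklyRegular (N : ModuleCat.{0} A) [Module.Finite A N] (D : ℕ)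
    (H : ∀ K' : ModuleCat.{0} A, Module.Finite A K' →
      Module.support A K' ⊆ PrimeSpectrum.zeroLocus (maximalIdeal A) →
      ∀ i < D, Subsingleton (Ext K' N i))
    (xs : List A) (hmem : ∀ x ∈ xs, x ∈ maximalIdeal A)
    (K : Type) [AddCommGroup K] [Module A K] [Module.Finite A K] (hreg : IsWeaklyRegular K xs)
    (hsupp : Module.support A (K ⧸ (Ideal.ofList xs • ⊤ : Submodule A K)) ⊆
      PrimeSpectrum.zeroLocus (maximalIdeal A)) :
    ∀ i, i + xs.length < D → Subsingleton (Ext (ModuleCat.of A K) N i) := by
  induction xs generalizing K with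
  | nil =>
    intro i hi
    apply H (ModuleCat.of A K) inferInstance _ i (by simpa using hi)
    have e : (K ⧸ (Ideal.ofList ([] : List A) • ⊤ : Submodule A K)) ≃ₗ[A] K :=
      Submodule.quotEquivOfEqBot _ (by rw [Ideal.ofList_nil, Submodule.bot_smul])
    rw [← e.support_eq]
    exact hsupp
  | cons x xs ih =>
    intro i hi
    rw [isWeaklyRegular_cons_iff] at hreg
    have hx : x ∈ maximalIdeal A := hmem x List.mem_cons_self
    have hsupp' : Module.support A (QuotSMulTop x K ⧸
        (Ideal.ofList xs • ⊤ : Submodule A (QuotSMulTop x K))) ⊆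
        PrimeSpectrum.zeroLocus (maximalIdeal A) := by
      rw [← (Submodule.quotOfListConsSMulTopEquivQuotSMulTopInner K x xs).support_eq]
      exact hsupp
    have := ih (fun y hy => hmem y (List.mem_cons_of_mem _ hy)) (QuotSMulTop x K) hreg.2 hsupp'
      (i + 1) (by simp only [List.length_cons] at hi; omega)
    exact subsingleton_ext_of_quotSMulTop (ModuleCat.of A K) N hx hreg.1 i this

/-- If `A` is a Noetherian local ring whose maximal ideal is generated by a (weakly) regular
sequence `x :: xs`, and `N` is a finite module of depth at least `xs.length + 1`, then `x` is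
`N`-regular. -/
lemma isSMulRegular_of_depth (x : A) (xs : List A) (hreg : IsWeaklyRegular A (x :: xs))
    (hm : Ideal.ofList (x :: xs) = maximalIdeal A)
    (N : Type) [AddCommGroup N] [Module A N] [Module.Finite A N]
    (ys : List A) (hys : IsRegular N ys) (hmem : ∀ y ∈ ys, y ∈ maximalIdeal A)
    (hlen : ys.length = xs.length + 1) : IsSMulRegular N x := by
  have : Nontrivial N := hys.nontrivial
  have smul_lt : (maximalIdeal A) • (⊤ : Submodule A N) < ⊤ := by
    refine lt_top_iff_ne_top.mpr fun h => ?_
    have := Submodule.eq_bot_of_le_smul_of_le_jacobson_bot (maximalIdeal A)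
      (⊤ : Submodule A N) Module.Finite.fg_top h.ge
      (IsLocalRing.jacobson_eq_maximalIdeal _ bot_ne_top).ge
    exact top_ne_bot this
  have H : ∀ K' : ModuleCat.{0} A, Module.Finite A K' →
      Module.support A K' ⊆ PrimeSpectrum.zeroLocus (maximalIdeal A) →
      ∀ i < xs.length + 1, Subsingleton (Ext K' (ModuleCat.of A N) i) := by
    intro K' _ hK' i hi
    exact ModuleCat.subsingleton_ext_of_exists_isRegular (maximalIdeal A) K' hK'
      (ModuleCat.of A N) smul_lt ys hmem hys i (by omega)
  rw [isWeaklyRegular_cons_iff] at hreg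
  have hxs : ∀ y ∈ xs, y ∈ maximalIdeal A := fun y hy => by
    rw [← hm]; exact Ideal.subset_span (List.mem_cons_of_mem _ hy)
  have hsupp : Module.support A (QuotSMulTop x A ⧸
      (Ideal.ofList xs • ⊤ : Submodule A (QuotSMulTop x A))) ⊆
      PrimeSpectrum.zeroLocus (maximalIdeal A) := by
    rw [← (Submodule.quotOfListConsSMulTopEquivQuotSMulTopInner A x xs).support_eq, hm,
      Module.support_eq_zeroLocus]
    apply PrimeSpectrum.zeroLocus_anti_mono
    intro a ha
    rw [SetLike.mem_coe, Module.mem_annihilator]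
    intro m
    obtain ⟨m, rfl⟩ := Submodule.Quotient.mk_surjective _ m
    rw [← Submodule.Quotient.mk_smul, Submodule.Quotient.mk_eq_zero]
    exact Submodule.smul_mem_smul ha trivial
  have h0 := subsingleton_ext_of_isWeaklyRegular (ModuleCat.of A N) (xs.length + 1) H xs hxs
    (QuotSMulTop x A) hreg.2 hsupp 0 (by omega)
  have h1 : Subsingleton (ModuleCat.of A (QuotSMulTop x A) ⟶ ModuleCat.of A N) :=
    Ext.addEquiv₀.subsingleton_congr.mp h0
  have h2 : Subsingleton (QuotSMulTop x A →ₗ[A] N) :=
    (ModuleCat.homAddEquiv (M := ModuleCat.of A (QuotSMulTop x A))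
      (N := ModuleCat.of A N)).symm.subsingleton
  obtain ⟨r, hr, hreg'⟩ := IsSMulRegular.subsingleton_linearMap_iff.mp h2
  have hr1 := Module.mem_annihilator.mp hr (Submodule.Quotient.mk (1 : A))
  rw [← Submodule.Quotient.mk_smul, Submodule.Quotient.mk_eq_zero,
    Submodule.mem_smul_pointwise_iff_exists] at hr1
  obtain ⟨a, -, ha⟩ := hr1
  simp only [smul_eq_mul, mul_one] at ha
  rw [isSMulRegular_iff_right_eq_zero_of_smul] at hreg' ⊢
  intro n hn
  apply hreg'
  rw [← ha, mul_comm, mul_smul, hn, smul_zero]

omit [IsNoetherianRing A] in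
lemma maximalIdeal_smul_top_lt_top (N : Type) [AddCommGroup N] [Module A N] [Module.Finite A N]
    [Nontrivial N] : (maximalIdeal A) • (⊤ : Submodule A N) < ⊤ := by
  refine lt_top_iff_ne_top.mpr fun h => ?_
  have := Submodule.eq_bot_of_le_smul_of_le_jacobson_bot (maximalIdeal A)
    (⊤ : Submodule A N) Module.Finite.fg_top h.ge
    (IsLocalRing.jacobson_eq_maximalIdeal _ bot_ne_top).ge
  exact top_ne_bot this

/-- If `N` has depth at least `n + 1` and `x ∈ 𝔪` is `N`-regular then `N/xN` has depth at
least `n`. -/
lemma exists_isRegular_quotSMulTop (x : A) (hx : x ∈ maximalIdeal A)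
    (N : Type) [AddCommGroup N] [Module A N] [Module.Finite A N] (hxN : IsSMulRegular N x)
    (ys : List A) (hys : IsRegular N ys) (hmem : ∀ y ∈ ys, y ∈ maximalIdeal A)
    (n : ℕ) (hlen : ys.length = n + 1) :
    ∃ zs : List A, zs.length = n ∧ (∀ z ∈ zs, z ∈ maximalIdeal A) ∧
      IsRegular (QuotSMulTop x N) zs := by
  have : Nontrivial N := hys.nontrivial
  have smul_lt := maximalIdeal_smul_top_lt_top (A := A) N
  have : Nontrivial (QuotSMulTop x N) := nontrivial_quotSMulTop_of_mem_maximalIdeal N hx
  have smul_lt' := maximalIdeal_smul_top_lt_top (A := A) (QuotSMulTop x N)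
  let k : ModuleCat.{0} A := ModuleCat.of A (A ⧸ maximalIdeal A)
  have hk : Module.support A k = PrimeSpectrum.zeroLocus (maximalIdeal A) := by
    rw [Module.support_eq_zeroLocus, Ideal.annihilator_quotient]
  have h_ext : ∀ i < n + 1, Subsingleton (Ext k (ModuleCat.of A N) i) := by
    intro i hi
    exact ModuleCat.subsingleton_ext_of_exists_isRegular (maximalIdeal A) k hk.subset
      (ModuleCat.of A N) smul_lt ys hmem hys i (by omega)
  have h_ext' : ∀ i < n, Subsingleton (Ext k (ModuleCat.of A (QuotSMulTop x N)) i) := by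
    intro i hi
    have zero1 := AddCommGrpCat.isZero_of_iff_subsingleton.mpr (h_ext i (by omega))
    have zero2 := AddCommGrpCat.isZero_of_iff_subsingleton.mpr (h_ext (i + 1) (by omega))
    exact AddCommGrpCat.subsingleton_of_isZero <| ShortComplex.Exact.isZero_of_both_zeros
      ((Ext.covariant_sequence_exact₃' k (IsSMulRegular.smulShortComplex_shortExact
        (M := ModuleCat.of A N) hxN)) i (i + 1) rfl)
      (zero1.eq_zero_of_src _) (zero2.eq_zero_of_tgt _)
  exact ModuleCat.exists_isRegular_of_exists_subsingleton_ext (maximalIdeal A) n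
    (ModuleCat.of A (QuotSMulTop x N)) smul_lt' k hk h_ext'

/-- **Auslander–Buchsbaum, special case.** Over a Noetherian local ring whose maximal ideal
is generated by a regular sequence of length `n`, a finite module of depth `≥ n` is free. -/
theorem free_of_isRegular_aux (n : ℕ) : ∀ (A : Type) [CommRing A] [IsLocalRing A]
    [IsNoetherianRing A] (xs : List A), xs.length = n → IsWeaklyRegular A xs →
    Ideal.ofList xs = maximalIdeal A →
    ∀ (N : Type) [AddCommGroup N] [Module A N] [Module.Finite A N] (ys : List A),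
    IsRegular N ys → (∀ y ∈ ys, y ∈ maximalIdeal A) → ys.length = n → Module.Free A N := by
  induction n with
  | zero =>
    intro A _ _ _ xs hlen _ hm N _ _ _ ys _ _ _
    have hxs : xs = [] := List.length_eq_zero_iff.mp hlen
    subst hxs
    rw [Ideal.ofList_nil] at hm
    have hF : IsField A := IsLocalRing.isField_iff_maximalIdeal_eq.mpr hm.symm
    let _ := hF.toField
    exact Module.Free.of_divisionRing A N
  | succ n ih =>
    intro A _ _ _ xs hlen hreg hm N _ _ _ ys hys hmem hylen
    obtain ⟨x, xs', rfl⟩ : ∃ x xs', xs = x :: xs' := by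
      cases xs with
      | nil => simp at hlen
      | cons x xs' => exact ⟨x, xs', rfl⟩
    have hlen' : xs'.length = n := by simpa using hlen
    have hx : x ∈ maximalIdeal A := by
      rw [← hm]; exact Ideal.subset_span List.mem_cons_self
    have hxN : IsSMulRegular N x :=
      isSMulRegular_of_depth x xs' hreg hm N ys hys hmem (by rw [hylen, hlen'])
    obtain ⟨zs, hzlen, hzmem, hzreg⟩ :=
      exists_isRegular_quotSMulTop x hx N hxN ys hys hmem n hylen
    have hne : Ideal.span {x} ≠ (⊤ : Ideal A) := by
      intro h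
      rw [Ideal.span_singleton_eq_top] at h
      exact (IsLocalRing.mem_maximalIdeal x).mp hx h
    have : Nontrivial (A ⧸ Ideal.span {x}) := Ideal.Quotient.nontrivial_iff.mpr hne
    have : IsLocalRing (A ⧸ Ideal.span {x}) :=
      IsLocalRing.of_surjective' (Ideal.Quotient.mk _) Ideal.Quotient.mk_surjective
    have hreg' := (isWeaklyRegular_cons_iff' A x xs').mp hreg
    have hsub : (x • (⊤ : Submodule A A)) = (Ideal.span {x} : Submodule A A) := by
      rw [← Submodule.ideal_span_singleton_smul, smul_eq_mul, Ideal.mul_top]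
    let e₀ : QuotSMulTop x A ≃ₗ[A] (A ⧸ Ideal.span {x}) := Submodule.quotEquivOfEq _ _ hsub
    let e : QuotSMulTop x A ≃ₗ[A ⧸ Ideal.span {x}] (A ⧸ Ideal.span {x}) :=
      e₀.extendScalarsOfSurjective Ideal.Quotient.mk_surjective
    have hreg'' : IsWeaklyRegular (A ⧸ Ideal.span {x})
        (xs'.map (Ideal.Quotient.mk (Ideal.span {x}))) :=
      (e.isWeaklyRegular_congr _).mp hreg'.2
    have hm' : Ideal.ofList (xs'.map (Ideal.Quotient.mk (Ideal.span {x}))) =
        maximalIdeal (A ⧸ Ideal.span {x}) := by
      rw [← IsLocalRing.map_maximalIdeal_of_surjective (Ideal.Quotient.mk (Ideal.span {x}))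
        Ideal.Quotient.mk_surjective, ← hm, Ideal.map_ofList, List.map_cons, Ideal.ofList_cons,
        Ideal.Quotient.eq_zero_iff_mem.mpr (Ideal.mem_span_singleton_self x)]
      simp
    have : Nontrivial N := hys.nontrivial
    have : Nontrivial (QuotSMulTop x N) := nontrivial_quotSMulTop_of_mem_maximalIdeal N hx
    have : Module.Finite (A ⧸ Ideal.span {x}) (QuotSMulTop x N) :=
      Module.Finite.of_restrictScalars_finite A (A ⧸ Ideal.span {x}) (QuotSMulTop x N)
    have hzmem' : ∀ z ∈ zs.map (Ideal.Quotient.mk (Ideal.span {x})),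
        z ∈ maximalIdeal (A ⧸ Ideal.span {x}) := by
      intro z hz
      obtain ⟨a, ha, rfl⟩ := List.mem_map.mp hz
      rw [← IsLocalRing.map_maximalIdeal_of_surjective (Ideal.Quotient.mk (Ideal.span {x}))
        Ideal.Quotient.mk_surjective]
      exact Ideal.mem_map_of_mem _ (hzmem a ha)
    have hz' : IsRegular (QuotSMulTop x N) (zs.map (Ideal.Quotient.mk (Ideal.span {x}))) :=
      IsRegular.of_isWeaklyRegular_of_mem_maximalIdeal (QuotSMulTop x N) hzmem'
        ((isWeaklyRegular_map_algebraMap_iff (A ⧸ Ideal.span {x}) (QuotSMulTop x N) zs).mpr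
          hzreg.toIsWeaklyRegular)
    have : IsNoetherianRing (A ⧸ Ideal.span {x}) :=
      isNoetherianRing_of_surjective A _ (Ideal.Quotient.mk (Ideal.span {x}))
        Ideal.Quotient.mk_surjective
    have : Module.FinitePresentation A N := Module.finitePresentation_of_finite A N
    have hfree := ih (A ⧸ Ideal.span {x}) _ (by simpa using hlen') hreg'' hm'
      (QuotSMulTop x N) _ hz' hzmem' (by simpa using hzlen)
    have hjac : x ∈ (⊥ : Ideal A).jacobson := by
      rw [IsLocalRing.jacobson_eq_maximalIdeal _ bot_ne_top]; exact hx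
    exact (Module.free_quotSMulTop_iff_free A N hjac hxN).mp hfree

/-- **Auslander–Buchsbaum, special case.** Over a Noetherian local ring whose maximal ideal
is generated by a weakly regular sequence `xs`, a finite module admitting a regular sequence
of the same length inside the maximal ideal is free. -/
theorem free_of_isRegular (xs : List A) (hxs : IsWeaklyRegular A xs)
    (hm : Ideal.ofList xs = maximalIdeal A)
    (N : Type) [AddCommGroup N] [Module A N] [Module.Finite A N] (ys : List A)
    (hys : IsRegular N ys) (hmem : ∀ y ∈ ys, y ∈ maximalIdeal A)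
    (hlen : ys.length = xs.length) : Module.Free A N :=
  free_of_isRegular_aux xs.length A xs rfl hxs hm N ys hys hmem hlen

end Fermat.Agent.S57
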