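import Mathlib.RingTheory.MvPowerSeries.Equiv
import Mathlib.RingTheory.MvPowerSeries.Inverse
import Mathlib.RingTheory.MvPowerSeries.NoZeroDivisors
import Mathlib.RingTheory.PowerSeries.Inverse
import Mathlib.RingTheory.DiscreteValuationRing.Basic
import Mathlib.RingTheory.Regular.RegularSequence
import Mathlib.RingTheory.LocalRing.RingHom.Basic

set_option autoImplicit false

open RingTheory.Sequence IsLocalRing Pointwise

namespace Fermat.Agent.S57

variable (𝒪 : Type) [CommRing 𝒪]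

/-- The list `X_0, …, X_{r-1}, ϖ` in `𝒪⟦X_0, …, X_{r-1}⟧`. -/
noncomputable def paramList (r : ℕ) (ϖ : 𝒪) : List (MvPowerSeries (Fin r) 𝒪) :=
  List.ofFn (fun i : Fin r => (MvPowerSeries.X i : MvPowerSeries (Fin r) 𝒪)) ++
    [algebraMap 𝒪 (MvPowerSeries (Fin r) 𝒪) ϖ]

/-- The ring homomorphism `𝒪⟦X_0, …, X_r⟧ → 𝒪⟦X_0, …, X_{r-1}⟧` setting `X_0 = 0` and
shifting the other variables. -/
noncomputable def dropVar (r : ℕ) :
    MvPowerSeries (Fin (r + 1)) 𝒪 →+* MvPowerSeries (Fin r) 𝒪 :=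
  (PowerSeries.constantCoeff (R := MvPowerSeries (Fin r) 𝒪)).comp
    (MvPowerSeries.finSuccEquiv 𝒪 r : MvPowerSeries (Fin (r + 1)) 𝒪 →+*
      PowerSeries (MvPowerSeries (Fin r) 𝒪))

variable {𝒪}

@[simp] lemma dropVar_X_zero (r : ℕ) : dropVar 𝒪 r (MvPowerSeries.X 0) = 0 := by
  simp [dropVar, MvPowerSeries.finSuccEquiv_X_zero]

@[simp] lemma dropVar_X_succ (r : ℕ) (j : Fin r) :
    dropVar 𝒪 r (MvPowerSeries.X j.succ) = MvPowerSeries.X j := by
  simp [dropVar, MvPowerSeries.finSuccEquiv_X_succ]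

@[simp] lemma dropVar_C (r : ℕ) (a : 𝒪) :
    dropVar 𝒪 r (MvPowerSeries.C a) = MvPowerSeries.C a := by
  simp [dropVar, MvPowerSeries.finSuccEquiv_C]

lemma dropVar_surjective (r : ℕ) : Function.Surjective (dropVar 𝒪 r) := by
  intro f
  refine ⟨(MvPowerSeries.finSuccEquiv 𝒪 r).symm (PowerSeries.C f), ?_⟩
  simp [dropVar]

lemma ker_dropVar (r : ℕ) :
    RingHom.ker (dropVar 𝒪 r) = Ideal.span {(MvPowerSeries.X 0 : MvPowerSeries (Fin (r + 1)) 𝒪)} := by
  ext f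
  rw [RingHom.mem_ker, Ideal.mem_span_singleton]
  simp only [dropVar, RingHom.coe_comp, Function.comp_apply]
  rw [← PowerSeries.X_dvd_iff, ← MvPowerSeries.finSuccEquiv_X_zero]
  exact map_dvd_iff (MvPowerSeries.finSuccEquiv 𝒪 r)

variable (𝒪) in
/-- The tail of `paramList 𝒪 (r + 1) ϖ`. -/
noncomputable def paramTail (r : ℕ) (ϖ : 𝒪) : List (MvPowerSeries (Fin (r + 1)) 𝒪) :=
  List.ofFn (fun j : Fin r => (MvPowerSeries.X j.succ : MvPowerSeries (Fin (r + 1)) 𝒪)) ++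
    [algebraMap 𝒪 (MvPowerSeries (Fin (r + 1)) 𝒪) ϖ]

lemma paramList_succ (r : ℕ) (ϖ : 𝒪) :
    paramList 𝒪 (r + 1) ϖ = MvPowerSeries.X 0 :: paramTail 𝒪 r ϖ := by
  simp [paramList, paramTail, List.ofFn_succ]

lemma paramTail_map (r : ℕ) (ϖ : 𝒪) :
    (paramTail 𝒪 r ϖ).map (dropVar 𝒪 r) = paramList 𝒪 r ϖ := by
  simp [paramList, paramTail, List.map_ofFn, Function.comp_def, MvPowerSeries.algebraMap_apply]

lemma mem_paramList_iff (r : ℕ) (ϖ : 𝒪) (f : MvPowerSeries (Fin r) 𝒪) :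
    f ∈ paramList 𝒪 r ϖ ↔ (∃ i : Fin r, f = MvPowerSeries.X i) ∨
      f = algebraMap 𝒪 (MvPowerSeries (Fin r) 𝒪) ϖ := by
  simp [paramList, List.mem_ofFn, eq_comm]

section Domain

variable [IsDomain 𝒪]

theorem paramList_isWeaklyRegular (ϖ : 𝒪) (hϖ : ϖ ≠ 0) (r : ℕ) :
    IsWeaklyRegular (MvPowerSeries (Fin r) 𝒪) (paramList 𝒪 r ϖ) := by
  induction r with
  | zero =>
    have h : paramList 𝒪 0 ϖ = [algebraMap 𝒪 (MvPowerSeries (Fin 0) 𝒪) ϖ] := by
      simp [paramList]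
    rw [h, isWeaklyRegular_singleton_iff]
    apply IsSMulRegular.of_ne_zero
    rw [MvPowerSeries.algebraMap_apply, Algebra.algebraMap_self, RingHom.id_apply]
    intro h0
    apply hϖ
    have := congrArg MvPowerSeries.constantCoeff h0
    simpa using this
  | succ r ih =>
    rw [paramList_succ]
    refine IsWeaklyRegular.cons ?_ ?_
    · apply IsSMulRegular.of_ne_zero
      intro h
      have := congrArg (MvPowerSeries.coeff (Finsupp.single (0 : Fin (r + 1)) 1)) h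
      simp [MvPowerSeries.coeff_X] at this
    · let _ : Algebra (MvPowerSeries (Fin (r + 1)) 𝒪) (MvPowerSeries (Fin r) 𝒪) :=
        (dropVar 𝒪 r).toAlgebra
      let f : MvPowerSeries (Fin (r + 1)) 𝒪 →ₗ[MvPowerSeries (Fin (r + 1)) 𝒪]
          MvPowerSeries (Fin r) 𝒪 :=
        Algebra.linearMap _ _
      have hsurj : Function.Surjective f := dropVar_surjective r
      have hker : LinearMap.ker f =
          (MvPowerSeries.X 0 : MvPowerSeries (Fin (r + 1)) 𝒪) •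
            (⊤ : Submodule (MvPowerSeries (Fin (r + 1)) 𝒪) (MvPowerSeries (Fin (r + 1)) 𝒪)) := by
        rw [← Submodule.ideal_span_singleton_smul, smul_eq_mul, Ideal.mul_top, ← ker_dropVar]
        rfl
      let e : QuotSMulTop (MvPowerSeries.X 0 : MvPowerSeries (Fin (r + 1)) 𝒪)
          (MvPowerSeries (Fin (r + 1)) 𝒪) ≃ₗ[MvPowerSeries (Fin (r + 1)) 𝒪]
          MvPowerSeries (Fin r) 𝒪 :=
        (Submodule.quotEquivOfEq _ _ hker.symm).trans (f.quotKerEquivOfSurjective hsurj)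
      rw [e.isWeaklyRegular_congr, ← isWeaklyRegular_map_algebraMap_iff
        (MvPowerSeries (Fin r) 𝒪) (MvPowerSeries (Fin r) 𝒪)]
      have : (paramTail 𝒪 r ϖ).map (algebraMap (MvPowerSeries (Fin (r + 1)) 𝒪)
          (MvPowerSeries (Fin r) 𝒪)) = paramList 𝒪 r ϖ := paramTail_map r ϖ
      rw [this]
      exact ih

variable [IsDiscreteValuationRing 𝒪]

theorem paramList_ofList (ϖ : 𝒪) (hϖ : Irreducible ϖ) (r : ℕ) :
    Ideal.ofList (paramList 𝒪 r ϖ) = maximalIdeal (MvPowerSeries (Fin r) 𝒪) := by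
  induction r with
  | zero =>
    have h : paramList 𝒪 0 ϖ = [algebraMap 𝒪 (MvPowerSeries (Fin 0) 𝒪) ϖ] := by
      simp [paramList]
    rw [h, Ideal.ofList_singleton]
    let e : 𝒪 ≃+* MvPowerSeries (Fin 0) 𝒪 :=
      (MvPowerSeries.isEmptyEquiv (Fin 0) 𝒪).symm.toRingEquiv
    rw [← IsLocalRing.map_ringEquiv_maximalIdeal e, hϖ.maximalIdeal_eq, Ideal.map_span,
      Set.image_singleton]
    congr 2
  | succ r ih =>
    have hloc : IsLocalHom (dropVar 𝒪 r) := IsLocalHom.of_surjective _ (dropVar_surjective r)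
    rw [← IsLocalRing.maximalIdeal_comap (dropVar 𝒪 r), ← ih, ← paramTail_map r ϖ,
      ← Ideal.map_ofList, Ideal.comap_map_of_surjective _ (dropVar_surjective r),
      paramList_succ, Ideal.ofList_cons, sup_comm]
    congr 1
    exact (ker_dropVar r).symm

end Domain

end Fermat.Agent.S57
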