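import Fermat.Prelude.Def_Algebra_PatchingDatum
import Fermat.Agent.S57.Depth
import Fermat.Agent.S57.ParamList

set_option autoImplicit false
set_option linter.unusedSectionVars false

open RingTheory.Sequence IsLocalRing Pointwise

namespace Fermat.Agent.S57

section Coord

variable {A : Type} [CommRing A] {N : Type} [AddCommGroup N] [Module A N]
  {ι : Type} [Fintype ι]

/-- Coordinates of elements of `I • ⊤` with respect to a basis lie in `I`. -/
lemma repr_mem_of_mem_smul_top (B : Module.Basis ι A N) (I : Ideal A) {n : N}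
    (hn : n ∈ I • (⊤ : Submodule A N)) (i : ι) : B.repr n i ∈ I := by
  refine Submodule.smul_induction_on hn ?_ ?_
  · intro a ha m _
    rw [map_smul, Finsupp.smul_apply, smul_eq_mul]
    exact I.mul_mem_right _ ha
  · intro x y hx hy
    rw [map_add, Finsupp.add_apply]
    exact I.add_mem hx hy

end Coord

variable {𝒪 : Type} [CommRing 𝒪] [IsDomain 𝒪] [IsDiscreteValuationRing 𝒪]
  {r : ℕ} {R : Type} [CommRing R] [Algebra 𝒪 R]
  {M : Type} [AddCommGroup M] [Module R M] [Nontrivial M]
  (L : Algebra.PatchingLevel 𝒪 r R M ⊥)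

include L in
lemma patching_nontrivial_R : Nontrivial R := Module.nontrivial R M

lemma patching_nontrivial_N : Nontrivial L.N := L.π_surjective.nontrivial

/-- The additive map `c ↦ ∑ φ(c i) • b i`. -/
noncomputable def patchingSum : (Fin L.d → MvPowerSeries (Fin r) 𝒪) →+ L.N where
  toFun c := ∑ i, L.φ (c i) • L.b i
  map_zero' := by simp
  map_add' c c' := by simp [add_smul, Finset.sum_add_distrib]

lemma patchingSum_apply (c : Fin L.d → MvPowerSeries (Fin r) 𝒪) :
    patchingSum L c = ∑ i, L.φ (c i) • L.b i := rfl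

lemma patchingSum_bijective : Function.Bijective (patchingSum L) := by
  constructor
  · rw [injective_iff_map_eq_zero]
    intro c hc
    have := (L.b_rel c).mp hc
    funext i
    simpa using this i
  · intro x
    obtain ⟨c, hc⟩ := L.b_span x
    exact ⟨c, hc.symm⟩

lemma patchingSum_smul (a : MvPowerSeries (Fin r) 𝒪) (c : Fin L.d → MvPowerSeries (Fin r) 𝒪) :
    patchingSum L (a • c) = L.φ a • patchingSum L c := by
  simp only [patchingSum_apply, Pi.smul_apply, smul_eq_mul, map_mul, mul_smul, Finset.smul_sum]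

lemma patching_finite : Module.Finite (MvPowerSeries (Fin r) 𝒪) L.N := by
  refine Module.Finite.of_surjective
    (Fintype.linearCombination (MvPowerSeries (Fin r) 𝒪) L.b) ?_
  intro x
  obtain ⟨c, hc⟩ := L.b_span x
  refine ⟨fun i => L.φ (c i), ?_⟩
  rw [hc, Fintype.linearCombination_apply]

include L in
lemma patching_phi_X_mem (i : Fin r) :
    L.φ (MvPowerSeries.X i) ∈ maximalIdeal (MvPowerSeries (Fin r) 𝒪) := by
  have : Nontrivial R := patching_nontrivial_R L
  rw [IsLocalRing.mem_maximalIdeal, mem_nonunits_iff]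
  intro hu
  have h := hu.map L.ψ
  rw [L.ψ_φ_X i] at h
  exact not_isUnit_zero h

/-- The patched module is free over the power series ring. -/
theorem patching_free : Module.Free (MvPowerSeries (Fin r) 𝒪) L.N := by
  obtain ⟨ϖ, hϖ⟩ := IsDiscreteValuationRing.exists_irreducible 𝒪
  have hxs := paramList_isWeaklyRegular ϖ hϖ.ne_zero r
  have hm := paramList_ofList ϖ hϖ r
  have : Nontrivial L.N := patching_nontrivial_N L
  have : Module.Finite (MvPowerSeries (Fin r) 𝒪) L.N := patching_finite L
  have hmem : ∀ y ∈ (paramList 𝒪 r ϖ).map L.φ, y ∈ maximalIdeal (MvPowerSeries (Fin r) 𝒪) := by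
    intro y hy
    obtain ⟨x, hx, rfl⟩ := List.mem_map.mp hy
    rcases (mem_paramList_iff r ϖ x).mp hx with ⟨i, rfl⟩ | rfl
    · exact patching_phi_X_mem L i
    · rw [AlgHom.commutes, ← hm]
      exact Ideal.subset_span ((mem_paramList_iff r ϖ _).mpr (Or.inr rfl))
  have hflat : IsWeaklyRegular (Fin L.d → MvPowerSeries (Fin r) 𝒪) (paramList 𝒪 r ϖ) := by
    have h1 := IsWeaklyRegular.isWeaklyRegular_lTensor
      (M₂ := Fin L.d → MvPowerSeries (Fin r) 𝒪) hxs
    exact ((TensorProduct.rid (MvPowerSeries (Fin r) 𝒪)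
      (Fin L.d → MvPowerSeries (Fin r) 𝒪)).isWeaklyRegular_congr _).mp h1
  have hreg : IsWeaklyRegular L.N ((paramList 𝒪 r ϖ).map L.φ) := by
    let e : (Fin L.d → MvPowerSeries (Fin r) 𝒪) ≃+ L.N :=
      AddEquiv.ofBijective (patchingSum L) (patchingSum_bijective L)
    refine (AddEquiv.isWeaklyRegular_congr (e := e) ?_).mp hflat
    exact List.forall₂_map_right_iff.mpr <| List.forall₂_same.mpr fun a _ c =>
      patchingSum_smul L a c
  have hys := IsRegular.of_isWeaklyRegular_of_mem_maximalIdeal L.N hmem hreg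
  exact free_of_isRegular (paramList 𝒪 r ϖ) hxs hm L.N _ hys hmem (by simp)

/-- The descent step: `M` is free and faithful over `R` and the kernel of `ψ` is generated
by the `φ (X i)`. -/
theorem patching_descent :
    Module.Free R M ∧ Module.annihilator R M = ⊥ ∧
      RingHom.ker L.ψ = Ideal.span (Set.range fun i : Fin r => L.φ (MvPowerSeries.X i)) := by
  have hfreeN : Module.Free (MvPowerSeries (Fin r) 𝒪) L.N := patching_free L
  have : Nontrivial L.N := patching_nontrivial_N L
  have : Module.Finite (MvPowerSeries (Fin r) 𝒪) L.N := patching_finite L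
  set I : Ideal (MvPowerSeries (Fin r) 𝒪) :=
    Ideal.span (Set.range fun i : Fin r => L.φ (MvPowerSeries.X i)) with hI
  let ι := Module.Free.ChooseBasisIndex (MvPowerSeries (Fin r) 𝒪) L.N
  let B : Module.Basis ι (MvPowerSeries (Fin r) 𝒪) L.N :=
    Module.Free.chooseBasis (MvPowerSeries (Fin r) 𝒪) L.N
  have hIker : I ≤ RingHom.ker L.ψ := by
    rw [hI, Ideal.span_le]
    rintro _ ⟨i, rfl⟩
    exact L.ψ_φ_X i
  -- `π` of a linear combination
  have hπsum : ∀ f : ι → MvPowerSeries (Fin r) 𝒪,
      L.π (∑ i, f i • B i) = ∑ i, L.ψ (f i) • L.π (B i) := by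
    intro f
    rw [map_sum]
    exact Finset.sum_congr rfl fun i _ => L.π_smul _ _
  -- coordinates of the kernel of `π`
  have hcoord : ∀ f : ι → MvPowerSeries (Fin r) 𝒪,
      L.π (∑ i, f i • B i) = 0 → ∀ i, f i ∈ I := by
    intro f hf i
    have h1 := (L.ker_π _).mp hf
    have h2 := repr_mem_of_mem_smul_top B I h1 i
    rwa [B.repr_sum_self] at h2
  have hker : RingHom.ker L.ψ = I := by
    refine le_antisymm ?_ hIker
    intro f hf
    obtain ⟨i₀⟩ : Nonempty ι := inferInstance
    have h0 : L.π (∑ i, (Pi.single i₀ f : ι → MvPowerSeries (Fin r) 𝒪) i • B i) = 0 := by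
      rw [hπsum]
      refine Finset.sum_eq_zero fun i _ => ?_
      by_cases h : i = i₀
      · subst h
        rw [Pi.single_eq_same, (RingHom.mem_ker).mp hf, zero_smul]
      · rw [Pi.single_eq_of_ne h, map_zero, zero_smul]
    simpa using hcoord _ h0 i₀
  have hli : LinearIndependent R (fun i : ι => L.π (B i)) := by
    rw [Fintype.linearIndependent_iff]
    intro g hg i
    choose f hf using fun i => L.ψ_surjective (g i)
    have h0 : L.π (∑ i, f i • B i) = 0 := by
      rw [hπsum, ← hg]
      exact Finset.sum_congr rfl fun i _ => by rw [hf i]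
    rw [← hf i]
    exact hIker (hcoord f h0 i)
  have hsp : ⊤ ≤ Submodule.span R (Set.range fun i : ι => L.π (B i)) := by
    intro m _
    obtain ⟨n, rfl⟩ := L.π_surjective m
    rw [← B.sum_repr n, hπsum]
    exact Submodule.sum_mem _ fun i _ =>
      Submodule.smul_mem _ _ (Submodule.subset_span ⟨i, rfl⟩)
  have hfreeM : Module.Free R M := Module.Free.of_basis (Module.Basis.mk hli hsp)
  refine ⟨hfreeM, ?_, hker⟩
  rw [Module.annihilator_eq_bot]
  exact Module.Free.instFaithfulSMulOfNontrivial R M

end Fermat.Agent.S57
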